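import Mathlib
import Fermat.Prelude.Def_CuspForm_IntegralLattice
import Fermat.Prelude.Def_FormalHecke_Eigensystem
import Fermat.Prelude.Def_ModularForm_EisensteinChiNegThree
import Fermat.Prelude.Def_FLTPrelim_Modularity
import Fermat.Prelude.Def_CuspForm_HeckeAlgebra
import Fermat.Prelude.Def_CuspForm_IntegralStructure
import Fermat.Prelude.Thm_CuspForm_intLattice_fg
import Fermat.Prelude.Thm_CuspForm_mem_intLattice_of_mem_heckeAlgebra
import Fermat.Prelude.Thm_ModularFormClass_qCoeff_heckeT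
import Fermat.Prelude.Thm_ModularFormClass_qCoeff_heckeU
import Fermat.Prelude.Thm_CongruenceSubgroup_one_mem_strictPeriods_Gamma0

set_option autoImplicit false

open CuspForm EisensteinWeightOne CongruenceSubgroup ModularFormClass UpperHalfPlane

namespace Fermat.Agent.S49

variable {N : ℕ} {k : ℤ}

theorem hΓ (N : ℕ) :
    (1 : ℝ) ∈ (Subgroup.map (Matrix.SpecialLinearGroup.mapGL ℝ) (Gamma0 N)).strictPeriods :=
  CongruenceSubgroup.one_mem_strictPeriods_Gamma0 N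

theorem qc_add (f g : CuspForm (Gamma0 N) k) (n : ℕ) :
    qCoeff ⇑(f + g) n = qCoeff ⇑f n + qCoeff ⇑g n := by
  simp only [qCoeff, FunLike.coe_add]
  rw [ModularForm.qExpansion_add one_pos (hΓ N) f g, map_add]

theorem qc_smul (c : ℂ) (f : CuspForm (Gamma0 N) k) (n : ℕ) :
    qCoeff ⇑(c • f) n = c * qCoeff ⇑f n := by
  have h1 : ⇑(c • f) = c • ⇑f := by
    ext z
    simp
  simp only [qCoeff, h1]
  rw [ModularForm.qExpansion_smul one_pos (hΓ N) c f]
  simp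

theorem qc_zero (n : ℕ) : qCoeff ⇑(0 : CuspForm (Gamma0 N) k) n = 0 := by
  simp only [qCoeff, FunLike.coe_zero]
  rw [UpperHalfPlane.qExpansion_zero, map_zero]

theorem qc_sub (f g : CuspForm (Gamma0 N) k) (n : ℕ) :
    qCoeff ⇑(f - g) n = qCoeff ⇑f n - qCoeff ⇑g n := by
  have h : f - g = f + (-1 : ℂ) • g := by
    rw [neg_one_smul, sub_eq_add_neg]
  rw [h, qc_add, qc_smul]
  ring

theorem qc_coeff_zero (f : CuspForm (Gamma0 N) k) : qCoeff ⇑f 0 = 0 :=
  CuspFormClass.qExpansion_coeff_zero f one_pos (hΓ N)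

theorem qc_eq_zero {f : CuspForm (Gamma0 N) k} (h : ∀ n, qCoeff ⇑f n = 0) : f = 0 := by
  have hq : qExpansion 1 ⇑f = 0 := by
    ext n
    rw [map_zero]
    exact h n
  have : Fact (IsCusp OnePoint.infty (Subgroup.map (Matrix.SpecialLinearGroup.mapGL ℝ) (Gamma0 N))) :=
    ⟨Subgroup.isCusp_of_mem_strictPeriods one_pos (hΓ N)⟩
  have h0 : (⇑f : ℍ → ℂ) = 0 :=
    (UpperHalfPlane.qExpansion_eq_zero_iff one_pos
      (SlashInvariantFormClass.periodic_comp_ofComplex f (hΓ N))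
      (ModularFormClass.holo f) (ModularFormClass.bdd_at_infty f)).mp hq
  exact DFunLike.coe_injective (h0.trans FunLike.coe_zero.symm)

theorem qc_heckeT {ℓ : ℕ} (hℓ : ℓ.Prime) (hℓN : ¬ ℓ ∣ N) (f : CuspForm (Gamma0 N) 2) (n : ℕ) :
    qCoeff ⇑(heckeTLin 2 hℓ hℓN f) n =
      qCoeff ⇑f (n * ℓ) + if ℓ ∣ n then (ℓ : ℂ) * qCoeff ⇑f (n / ℓ) else 0 := by
  rw [CuspForm.coe_heckeTLin_apply, ModularFormClass.qCoeff_heckeT f (hΓ N) hℓ.ne_zero n,
    ModularForm.coeffHeckeT_apply]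
  norm_num

theorem qc_heckeU [NeZero N] {p : ℕ} (hp : p.Prime) (hpN : p ∣ N) (f : CuspForm (Gamma0 N) 2)
    (n : ℕ) : qCoeff ⇑(heckeULin 2 hpN f) n = qCoeff ⇑f (n * p) := by
  rw [CuspForm.coe_heckeULin_apply, ModularFormClass.qCoeff_heckeU f (hΓ N) hp.ne_zero n,
    ModularForm.coeffHeckeU_apply]

def intSub (N : ℕ) (k : ℤ) : Submodule ℤ (CuspForm (Gamma0 N) k) where
  carrier := {f | ∀ n : ℕ, ∃ m : ℤ, qCoeff f n = (m : ℂ)}
  add_mem' {f g} hf hg n := by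
    obtain ⟨a, ha⟩ := hf n
    obtain ⟨b, hb⟩ := hg n
    exact ⟨a + b, by rw [qc_add, ha, hb]; push_cast; ring⟩
  zero_mem' n := ⟨0, by rw [qc_zero]; simp⟩
  smul_mem' c {f} hf n := by
    obtain ⟨a, ha⟩ := hf n
    refine ⟨c * a, ?_⟩
    have h : c • f = (c : ℂ) • f := by
      rw [Int.cast_smul_eq_zsmul]
    rw [h, qc_smul, ha]
    push_cast
    ring

theorem mem_intLattice_iff (f : CuspForm (Gamma0 N) k) :
    f ∈ CuspForm.intLattice N k ↔ ∀ n : ℕ, ∃ m : ℤ, qCoeff f n = (m : ℂ) := by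
  have h : CuspForm.intLattice N k = intSub N k := Submodule.span_eq (intSub N k)
  rw [h]
  rfl

theorem mem_qIntegralSet_iff (f : CuspForm (Gamma0 N) 2) :
    f ∈ CuspForm.qIntegralSet N ↔ f ∈ CuspForm.intLattice N 2 := by
  rw [mem_intLattice_iff]
  unfold CuspForm.qIntegralSet
  simp only [Set.mem_ofPred_eq, Subring.mem_bot]
  constructor
  · intro h n
    obtain ⟨m, hm⟩ := h n
    exact ⟨m, hm.symm⟩
  · intro h n
    obtain ⟨m, hm⟩ := h n
    exact ⟨m, hm.symm⟩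

theorem qIntegralSet_eq (N : ℕ) :
    CuspForm.qIntegralSet N = (CuspForm.intLattice N 2 : Set (CuspForm (Gamma0 N) 2)) := by
  ext f
  exact mem_qIntegralSet_iff f

theorem finite_of_hasIntegralBasis [NeZero N] (h : CuspForm.HasIntegralBasis N) :
    Module.Finite ℂ (CuspForm (Gamma0 N) 2) := by
  obtain ⟨s, hs⟩ := CuspForm.intLattice_fg N 2
  refine ⟨⟨s, ?_⟩⟩
  rw [eq_top_iff, ← h, Submodule.span_le, qIntegralSet_eq, ← hs]
  intro x hx
  exact Submodule.span_le_restrictScalars ℤ ℂ (s : Set (CuspForm (Gamma0 N) 2)) hx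

end Fermat.Agent.S49
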