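import Mathlib
import Fermat.Prelude.Def_CuspForm_IntegralLattice
import Fermat.Prelude.Def_FormalHecke_Eigensystem
import Fermat.Prelude.Def_FLTPrelim_Modularity
import Fermat.Prelude.Def_CuspForm_HeckeAlgebra
import Fermat.Prelude.Thm_ModularFormClass_qCoeff_heckeT
import Fermat.Prelude.Thm_ModularFormClass_qCoeff_heckeU
import Fermat.Prelude.Thm_CongruenceSubgroup_one_mem_strictPeriods_Gamma0

set_option autoImplicit false

namespace Fermat.Agent.S49

open CuspForm CongruenceSubgroup ModularFormClass UpperHalfPlane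

section Formal

variable {R : Type*} [CommRing R]

/-- Multiplicativity of a formal Hecke eigensystem on coprime arguments. -/
theorem h7_mul_of_coprime (e a : ℕ → R) (h : FormalHecke.IsEigensystem e a) :
    ∀ m n : ℕ, m.Coprime n → a (m * n) = a m * a n := by
  obtain ⟨h1, hrec⟩ := h
  intro m
  induction m using Nat.strong_induction_on with
  | _ m ih =>
    intro n hmn
    rcases Nat.lt_or_ge m 2 with hm | hm
    · interval_cases m
      · have hn : n = 1 := by simpa using hmn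
        subst hn
        simp [h1]
      · simp [h1]
    · obtain ⟨ℓ, hℓ, hℓm⟩ := Nat.exists_prime_and_dvd (show m ≠ 1 by omega)
      obtain ⟨m', rfl⟩ := hℓm
      have hℓpos : 0 < ℓ := hℓ.pos
      have hm'pos : 0 < m' := by
        rcases Nat.eq_zero_or_pos m' with h0 | h0
        · subst h0; omega
        · exact h0
      have hm'lt : m' < ℓ * m' := by
        have := hℓ.two_le
        nlinarith
      have hcop' : m'.Coprime n := Nat.Coprime.coprime_dvd_left (Dvd.intro_left ℓ rfl) hmn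
      have hℓn : ¬ ℓ ∣ n := by
        intro hdvd
        have h2 : ℓ ∣ Nat.gcd (ℓ * m') n := Nat.dvd_gcd (Dvd.intro m' rfl) hdvd
        rw [hmn] at h2
        exact hℓ.one_lt.ne' (Nat.dvd_one.mp h2)
      have e1 := hrec ℓ hℓ (m' * n)
      have e2 := hrec ℓ hℓ m'
      have ihm' := ih m' hm'lt n hcop'
      rw [mul_assoc]
      by_cases hd : ℓ ∣ m'
      · obtain ⟨m'', rfl⟩ := hd
        have hm''pos : 0 < m'' := by
          rcases Nat.eq_zero_or_pos m'' with h0 | h0
          · subst h0; omega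
          · exact h0
        have hm''lt : m'' < ℓ * (ℓ * m'') := by
          have := hℓ.two_le
          nlinarith
        have hcop'' : m''.Coprime n :=
          Nat.Coprime.coprime_dvd_left (Dvd.intro_left ℓ rfl) hcop'
        have ihm'' := ih m'' hm''lt n hcop''
        have hd1 : ℓ ∣ ℓ * m'' * n := Dvd.intro (m'' * n) (by ring)
        have hd2 : ℓ ∣ ℓ * m'' := Dvd.intro m'' rfl
        rw [if_pos hd1, show ℓ * m'' * n / ℓ = m'' * n by
          rw [mul_assoc, Nat.mul_div_cancel_left _ hℓpos]] at e1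
        rw [if_pos hd2, Nat.mul_div_cancel_left _ hℓpos] at e2
        rw [ihm', ihm''] at e1
        linear_combination e1 - a n * e2
      · have hd1 : ¬ ℓ ∣ m' * n := by
          intro hdvd
          rcases (Nat.Prime.dvd_mul hℓ).mp hdvd with h' | h'
          · exact hd h'
          · exact hℓn h'
        rw [if_neg hd1] at e1
        rw [if_neg hd] at e2
        rw [ihm'] at e1
        linear_combination e1 - a n * e2

/-- A formal Hecke eigensystem is recursive. -/
theorem h7_isRecursive_of_isEigensystem (e a : ℕ → R) (h : FormalHecke.IsEigensystem e a) :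
    FormalHecke.IsRecursive e a := by
  refine ⟨h.1, h7_mul_of_coprime e a h, ?_⟩
  intro ℓ r hℓ
  have e1 := h.2 ℓ hℓ (ℓ ^ (r + 1))
  have hd : ℓ ∣ ℓ ^ (r + 1) := Dvd.intro_left (ℓ ^ r) rfl
  rw [if_pos hd, show ℓ ^ (r + 1) / ℓ = ℓ ^ r by
    rw [pow_succ, Nat.mul_div_cancel _ hℓ.pos], show ℓ * ℓ ^ (r + 1) = ℓ ^ (r + 2) by ring] at e1
  linear_combination e1

end Formal


section Bridge

variable {N : ℕ}

theorem h7_qCoeff_smul (c : ℂ) (v : CuspForm (Gamma0 N) 2) (n : ℕ) :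
    qCoeff (⇑(c • v)) n = c * qCoeff (⇑v) n := by
  have h := ModularForm.qExpansion_smul one_pos
    (CongruenceSubgroup.one_mem_strictPeriods_Gamma0 N) c v
  unfold qCoeff
  rw [show (⇑(c • v) : ℍ → ℂ) = c • ⇑v from rfl, h]
  simp

theorem h7_qCoeff_zero (v : CuspForm (Gamma0 N) 2) : qCoeff (⇑v) 0 = 0 :=
  CuspFormClass.qExpansion_coeff_zero v one_pos (CongruenceSubgroup.one_mem_strictPeriods_Gamma0 N)

theorem h7_qCoeff_heckeTLin {ℓ : ℕ} (hℓ : ℓ.Prime) (hℓN : ¬ ℓ ∣ N)
    (v : CuspForm (Gamma0 N) 2) (n : ℕ) :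
    qCoeff (⇑(CuspForm.heckeTLin 2 hℓ hℓN v)) n =
      qCoeff (⇑v) (n * ℓ) + if ℓ ∣ n then (ℓ : ℂ) * qCoeff (⇑v) (n / ℓ) else 0 := by
  have h := ModularFormClass.qCoeff_heckeT v
    (CongruenceSubgroup.one_mem_strictPeriods_Gamma0 N) hℓ.ne_zero n
  rw [CuspForm.coe_heckeTLin_apply, h, ModularForm.coeffHeckeT_apply]
  norm_num

theorem h7_qCoeff_heckeULin [NeZero N] {q : ℕ} (hq : q.Prime) (hqN : q ∣ N)
    (v : CuspForm (Gamma0 N) 2) (n : ℕ) :
    qCoeff (⇑(CuspForm.heckeULin 2 hqN v)) n = qCoeff (⇑v) (n * q) := by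
  have h := ModularFormClass.qCoeff_heckeU (k := 2) v
    (CongruenceSubgroup.one_mem_strictPeriods_Gamma0 N) hq.ne_zero n
  rw [CuspForm.coe_heckeULin_apply, h, ModularForm.coeffHeckeU_apply]

theorem h7_eq_zero_of_qCoeff (v : CuspForm (Gamma0 N) 2) (h : ∀ n, qCoeff (⇑v) n = 0) : v = 0 := by
  have hΓ := CongruenceSubgroup.one_mem_strictPeriods_Gamma0 N
  have hcusp : Fact (IsCusp OnePoint.infty
      ((Gamma0 N : Subgroup (Matrix.SpecialLinearGroup (Fin 2) ℤ)) :
        Subgroup (Matrix.GeneralLinearGroup (Fin 2) ℝ))) :=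
    ⟨Subgroup.isCusp_of_mem_strictPeriods one_pos hΓ⟩
  have h0 : qExpansion 1 (⇑v) = 0 := by
    ext n
    simpa [qCoeff] using h n
  have := (UpperHalfPlane.qExpansion_eq_zero_iff one_pos
    (SlashInvariantFormClass.periodic_comp_ofComplex v hΓ) (ModularFormClass.holo v)
    (ModularFormClass.bdd_at_infty v)).mp h0
  exact DFunLike.coe_injective this

/-- A nonzero simultaneous eigenvector of all `T_ℓ` (`ℓ ∤ N`) and `U_q` (`q ∣ N`) has nonzero
first coefficient, and its normalisation is a normalised eigenform whose prime coefficients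
are the eigenvalues. -/
theorem h7_exists_normalized_eigenform [NeZero N] (v : CuspForm (Gamma0 N) 2) (hv : v ≠ 0)
    (lam : ℕ → ℂ)
    (hT : ∀ (ℓ : ℕ) (hℓ : ℓ.Prime) (hℓN : ¬ ℓ ∣ N), CuspForm.heckeTLin 2 hℓ hℓN v = lam ℓ • v)
    (hU : ∀ (q : ℕ) (_ : q.Prime) (hqN : q ∣ N), CuspForm.heckeULin 2 hqN v = lam q • v) :
    ∃ f : CuspForm (Gamma0 N) 2, f.IsNormalizedEigenform ∧
      ∀ ℓ : ℕ, ℓ.Prime → qCoeff (⇑f) ℓ = lam ℓ := by
  classical
  set b : ℕ → ℂ := fun n => qCoeff (⇑v) n with hb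
  set e : ℕ → ℂ := fun ℓ => if ℓ ∣ N then 0 else (ℓ : ℂ) with he
  have hb0 : b 0 = 0 := h7_qCoeff_zero v
  have hrel : ∀ ℓ : ℕ, ℓ.Prime → ∀ n : ℕ,
      b (ℓ * n) + e ℓ * (if ℓ ∣ n then b (n / ℓ) else 0) = lam ℓ * b n := by
    intro ℓ hℓ n
    by_cases hℓN : ℓ ∣ N
    · have h1 := h7_qCoeff_heckeULin hℓ hℓN v n
      rw [hU ℓ hℓ hℓN, h7_qCoeff_smul] at h1
      simp only [he, if_pos hℓN, zero_mul, add_zero, hb]
      rw [mul_comm ℓ n]
      exact h1.symm
    · have h1 := h7_qCoeff_heckeTLin hℓ hℓN v n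
      rw [hT ℓ hℓ hℓN, h7_qCoeff_smul] at h1
      simp only [he, if_neg hℓN, hb]
      rw [mul_comm ℓ n, h1]
      split_ifs <;> ring
  have hb1 : b 1 ≠ 0 := by
    intro h1
    apply hv
    apply h7_eq_zero_of_qCoeff
    intro n
    show b n = 0
    induction n using Nat.strong_induction_on with
    | _ n ih =>
      rcases Nat.lt_or_ge n 2 with hn | hn
      · interval_cases n
        · exact hb0
        · exact h1
      · obtain ⟨ℓ, hℓ, hℓn⟩ := Nat.exists_prime_and_dvd (show n ≠ 1 by omega)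
        obtain ⟨m, rfl⟩ := hℓn
        have hmpos : 0 < m := by
          rcases Nat.eq_zero_or_pos m with h0 | h0
          · subst h0; omega
          · exact h0
        have hmlt : m < ℓ * m := by
          have := hℓ.two_le
          nlinarith
        have e1 := hrel ℓ hℓ m
        have hm0 : b m = 0 := ih m hmlt
        have hm1 : b (m / ℓ) = 0 := ih (m / ℓ) (lt_of_le_of_lt (Nat.div_le_self m ℓ) hmlt)
        rw [hm0, hm1] at e1
        simpa using e1
  have hlam : ∀ ℓ : ℕ, ℓ.Prime → b ℓ = lam ℓ * b 1 := by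
    intro ℓ hℓ
    have e1 := hrel ℓ hℓ 1
    have hnd : ¬ ℓ ∣ 1 := fun h => hℓ.one_lt.ne' (Nat.dvd_one.mp h)
    rw [if_neg hnd, mul_zero, add_zero, mul_one] at e1
    exact e1
  set c : ℕ → ℂ := fun n => (b 1)⁻¹ * b n with hc
  have hcf : ∀ n, qCoeff (⇑((b 1)⁻¹ • v)) n = c n := fun n => h7_qCoeff_smul _ v n
  have hcl : ∀ ℓ : ℕ, ℓ.Prime → c ℓ = lam ℓ := by
    intro ℓ hℓ
    simp only [hc]
    rw [hlam ℓ hℓ]
    field_simp
  have heig : FormalHecke.IsEigensystem e c := by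
    refine ⟨by simp only [hc]; exact inv_mul_cancel₀ hb1, ?_⟩
    intro ℓ hℓ n
    rw [hcl ℓ hℓ]
    have e1 := hrel ℓ hℓ n
    simp only [hc]
    split_ifs with hd
    · rw [if_pos hd] at e1
      linear_combination (b 1)⁻¹ * e1
    · rw [if_neg hd] at e1
      linear_combination (b 1)⁻¹ * e1
  obtain ⟨hc1, hmul, hpow⟩ := h7_isRecursive_of_isEigensystem e c heig
  refine ⟨(b 1)⁻¹ • v, ⟨?_, ?_, ?_, ?_⟩, ?_⟩
  · rw [hcf]; exact hc1
  · intro m n hmn
    rw [hcf, hcf, hcf]; exact hmul m n hmn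
  · intro p r hp hpN
    rw [hcf, hcf, hcf, hcf, hpow p r hp]
    simp only [he, if_neg hpN]
  · intro p r hp hpN
    rw [hcf, hcf, hcf, hpow p r hp]
    simp only [he, if_pos hpN, zero_mul, sub_zero]
  · intro ℓ hℓ
    rw [hcf]; exact hcl ℓ hℓ

end Bridge

end Fermat.Agent.S49
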