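import Mathlib

set_option autoImplicit false

namespace Fermat.Agent.S49

open Module

section Abstract

variable {k V T : Type*} [Field k] [AddCommGroup V] [Module k V] [CommRing T]

theorem h6_rho_comm (ρ : T →+* Module.End k V) (s t : T) (w : V) :
    ρ s (ρ t w) = ρ t (ρ s w) := by
  rw [← Module.End.mul_apply, ← Module.End.mul_apply, ← map_mul, ← map_mul, mul_comm]

theorem h6_exists_simultaneous_eigenvector_aux [IsAlgClosed k] [FiniteDimensional k V]
    (ρ : T →+* Module.End k V) :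
    ∀ n : ℕ, ∀ W : Submodule k V, finrank k W = n → W ≠ ⊥ → (∀ t : T, ∀ w ∈ W, ρ t w ∈ W) →
      ∃ v ∈ W, v ≠ 0 ∧ ∀ t : T, ∃ c : k, ρ t v = c • v := by
  intro n
  induction n using Nat.strong_induction_on with
  | _ n ih =>
    intro W hn hW hinv
    by_cases h : ∀ v ∈ W, ∀ t : T, ∃ c : k, ρ t v = c • v
    · obtain ⟨v, hv, hv0⟩ := (Submodule.ne_bot_iff W).mp hW
      exact ⟨v, hv, hv0, h v hv⟩
    · simp only [not_forall, not_exists] at h
      obtain ⟨v₀, hv₀, t, ht⟩ := h
      have hnt : Nontrivial W := (Submodule.nontrivial_iff_ne_bot).mpr hW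
      obtain ⟨μ, hμ⟩ := Module.End.exists_eigenvalue ((ρ t).restrict (hinv t))
      obtain ⟨w, hw⟩ := hμ.exists_hasEigenvector
      have hw1 : ρ t (w : V) = μ • (w : V) := by
        have := hw.apply_eq_smul
        have h2 := congrArg Subtype.val this
        simpa using h2
      have hw0 : (w : V) ≠ 0 := by
        intro h0
        exact hw.2 (Subtype.ext h0)
      let W' : Submodule k V := W ⊓ (ρ t).eigenspace μ
      have hW'le : W' ≤ W := inf_le_left
      have hwW' : (w : V) ∈ W' := ⟨w.2, Module.End.mem_eigenspace_iff.mpr hw1⟩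
      have hW'ne : W' ≠ ⊥ := fun hbot => hw0 (by
        have : (w : V) ∈ (⊥ : Submodule k V) := hbot ▸ hwW'
        simpa using this)
      have hv₀W' : v₀ ∉ W' := fun hmem => ht μ (Module.End.mem_eigenspace_iff.mp hmem.2)
      have hlt : W' < W := lt_of_le_of_ne hW'le (fun heq => hv₀W' (heq ▸ hv₀))
      have hfin : finrank k W' < n := hn ▸ Submodule.finrank_lt_finrank_of_lt hlt
      have hinv' : ∀ s : T, ∀ x ∈ W', ρ s x ∈ W' := by
        intro s x hx
        refine ⟨hinv s x hx.1, ?_⟩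
        show ρ s x ∈ (ρ t).eigenspace μ
        rw [Module.End.mem_eigenspace_iff, h6_rho_comm, Module.End.mem_eigenspace_iff.mp hx.2,
          map_smul]
      obtain ⟨v, hv, hv0, hv1⟩ := ih _ hfin W' rfl hW'ne hinv'
      exact ⟨v, hW'le hv, hv0, hv1⟩

theorem h6_exists_eigenvector_ringHom [IsAlgClosed k] [FiniteDimensional k V]
    (ρ : T →+* Module.End k V) (W : Submodule k V) (hW : W ≠ ⊥)
    (hinv : ∀ t : T, ∀ w ∈ W, ρ t w ∈ W) :
    ∃ (ψ : T →+* k) (v : V), v ∈ W ∧ v ≠ 0 ∧ ∀ t, ρ t v = ψ t • v := by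
  obtain ⟨v, hvW, hv0, hv⟩ :=
    h6_exists_simultaneous_eigenvector_aux ρ (finrank k W) W rfl hW hinv
  choose c hc using hv
  have hinj : Function.Injective (fun a : k => a • v) := smul_left_injective k hv0
  refine ⟨{ toFun := c, map_one' := ?_, map_mul' := ?_, map_zero' := ?_, map_add' := ?_ },
    v, hvW, hv0, hc⟩
  · apply hinj
    show c 1 • v = (1 : k) • v
    rw [← hc, map_one, one_smul, Module.End.one_apply]
  · intro s t
    apply hinj
    show c (s * t) • v = (c s * c t) • v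
    rw [← hc, map_mul, Module.End.mul_apply, hc t, map_smul, hc s, smul_smul, mul_comm]
  · apply hinj
    show c 0 • v = (0 : k) • v
    rw [← hc, map_zero, zero_smul, LinearMap.zero_apply]
  · intro s t
    apply hinj
    show c (s + t) • v = (c s + c t) • v
    rw [← hc, map_add, LinearMap.add_apply, hc s, hc t, add_smul]

theorem h6_exists_eigenvector_ker_le_aux [IsAlgClosed k] [FiniteDimensional k V]
    (ρ : T →+* Module.End k V) (𝔪 : Ideal T) [𝔪.IsPrime] :
    ∀ n : ℕ, ∀ W : Submodule k V, finrank k W = n → (∀ t : T, ∀ w ∈ W, ρ t w ∈ W) →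
      (∀ t : T, (∀ w ∈ W, ρ t w = 0) → t ∈ 𝔪) →
      ∃ (ψ : T →+* k) (v : V), v ∈ W ∧ v ≠ 0 ∧ (∀ t, ρ t v = ψ t • v) ∧ RingHom.ker ψ ≤ 𝔪 := by
  intro n
  induction n using Nat.strong_induction_on with
  | _ n ih =>
    intro W hn hinv hann
    have hW : W ≠ ⊥ := by
      rintro rfl
      have h1 : (1 : T) ∈ 𝔪 := hann 1 (fun w hw => by
        rw [(Submodule.mem_bot k).mp hw, map_zero])
      exact (Ideal.IsPrime.ne_top ‹_›) ((Ideal.eq_top_iff_one 𝔪).mpr h1)
    obtain ⟨ψ, v, hvW, hv0, hv⟩ := h6_exists_eigenvector_ringHom ρ W hW hinv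
    by_cases hk : RingHom.ker ψ ≤ 𝔪
    · exact ⟨ψ, v, hvW, hv0, hv, hk⟩
    · obtain ⟨t₁, ht₁, ht₁'⟩ := SetLike.not_le_iff_exists.mp hk
      have hψt₁ : ψ t₁ = 0 := (RingHom.mem_ker).mp ht₁
      let W' : Submodule k V := W.map (ρ t₁)
      have hW'le : W' ≤ W := by
        rintro x ⟨w, hw, rfl⟩
        exact hinv t₁ w hw
      have hfin : finrank k W' < n := by
        have hrn := LinearMap.finrank_range_add_finrank_ker ((ρ t₁).domRestrict W)
        rw [LinearMap.range_domRestrict] at hrn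
        have hker : 0 < finrank k (LinearMap.ker ((ρ t₁).domRestrict W)) := by
          rw [Module.finrank_pos_iff_exists_ne_zero]
          refine ⟨⟨⟨v, hvW⟩, ?_⟩, ?_⟩
          · rw [LinearMap.mem_ker, LinearMap.domRestrict_apply]
            show ρ t₁ v = 0
            rw [hv, hψt₁, zero_smul]
          · intro h0
            apply hv0
            have := congrArg (fun x : LinearMap.ker ((ρ t₁).domRestrict W) => ((x : W) : V)) h0
            simpa using this
        show finrank k (W.map (ρ t₁)) < n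
        omega
      have hinv' : ∀ s : T, ∀ x ∈ W', ρ s x ∈ W' := by
        rintro s x ⟨w, hw, rfl⟩
        exact ⟨ρ s w, hinv s w hw, h6_rho_comm ρ t₁ s w⟩
      have hann' : ∀ t : T, (∀ w ∈ W', ρ t w = 0) → t ∈ 𝔪 := by
        intro t ht
        have : t * t₁ ∈ 𝔪 := hann (t * t₁) (fun w hw => by
          rw [map_mul, Module.End.mul_apply]
          exact ht _ ⟨w, hw, rfl⟩)
        exact ((Ideal.IsPrime.mem_or_mem ‹_› this).resolve_right ht₁')
      obtain ⟨ψ', v', hv'W, hv'0, hv', hk'⟩ := ih _ hfin W' rfl hinv' hann'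
      exact ⟨ψ', v', hW'le hv'W, hv'0, hv', hk'⟩

/-- Simultaneous eigenvector whose eigencharacter has kernel inside a given prime ideal
containing the kernel of the action. -/
theorem exists_eigenvector_ker_le [IsAlgClosed k] [FiniteDimensional k V]
    (ρ : T →+* Module.End k V) (𝔪 : Ideal T) [𝔪.IsPrime] (h𝔪 : RingHom.ker ρ ≤ 𝔪) :
    ∃ (ψ : T →+* k) (v : V), v ≠ 0 ∧ (∀ t, ρ t v = ψ t • v) ∧ RingHom.ker ψ ≤ 𝔪 := by
  obtain ⟨ψ, v, -, hv0, hv, hk⟩ :=
    h6_exists_eigenvector_ker_le_aux ρ 𝔪 (finrank k (⊤ : Submodule k V)) ⊤ rfl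
      (fun _ _ _ => Submodule.mem_top)
      (fun t ht => h𝔪 ((RingHom.mem_ker).mpr (LinearMap.ext fun w => by
        rw [ht w Submodule.mem_top, LinearMap.zero_apply])))
  exact ⟨ψ, v, hv0, hv, hk⟩

end Abstract

section LyingOver

variable {T : Type*} [CommRing T]

/-- A character `ψ : T → ℂ` of a ring integral over `ℤ` lands in the algebraic integers, and a
maximal ideal containing its kernel is the contraction of a maximal ideal of `ℤ̄`. -/
theorem exists_maximal_comap_eq [Algebra.IsIntegral ℤ T] (ψ : T →+* ℂ) (𝔪 : Ideal T)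
    [𝔪.IsMaximal] (h : RingHom.ker ψ ≤ 𝔪) :
    ∃ (ψ' : T →+* integralClosure ℤ ℂ) (𝔪' : Ideal (integralClosure ℤ ℂ)),
      (∀ t, ((ψ' t : integralClosure ℤ ℂ) : ℂ) = ψ t) ∧ 𝔪'.IsMaximal ∧ 𝔪'.comap ψ' = 𝔪 := by
  have hint : ∀ t : T, ψ t ∈ integralClosure ℤ ℂ := fun t =>
    (Algebra.IsIntegral.isIntegral (R := ℤ) t).map (ψ.toIntAlgHom)
  let ψ' : T →+* integralClosure ℤ ℂ := ψ.codRestrict (integralClosure ℤ ℂ).toSubring hint
  let _ : Algebra T (integralClosure ℤ ℂ) := ψ'.toAlgebra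
  have hint' : Algebra.IsIntegral T (integralClosure ℤ ℂ) := by
    refine ⟨fun x => ?_⟩
    have hx : IsIntegral ℤ x := Algebra.IsIntegral.isIntegral x
    exact hx.tower_top
  have hker : RingHom.ker (algebraMap T (integralClosure ℤ ℂ)) ≤ 𝔪 := by
    intro t ht
    apply h
    rw [RingHom.mem_ker] at ht ⊢
    have h1 : ((algebraMap T (integralClosure ℤ ℂ) t : integralClosure ℤ ℂ) : ℂ) = ψ t := rfl
    rw [← h1, ht]
    rfl
  obtain ⟨Q, hQ, hQ'⟩ := Ideal.exists_ideal_over_maximal_of_isIntegral 𝔪 hker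
  exact ⟨ψ', Q, fun t => rfl, hQ, hQ'⟩

end LyingOver

end Fermat.Agent.S49
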