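import Fermat.Agent.S49.Cong

set_option autoImplicit false

open CuspForm EisensteinWeightOne CongruenceSubgroup ModularFormClass UpperHalfPlane

namespace Fermat.Agent.S49

variable {N : ℕ}

theorem mem_congIdeal_iff [NeZero N] (f₀ : CuspForm (Gamma0 N) 2) (t : heckeAlgebra N 2 ∅) :
    t ∈ congIdeal N f₀ ↔ ∀ n : ℕ, ∃ m : ℤ,
      qCoeff ⇑((t : Module.End ℂ (CuspForm (Gamma0 N) 2)) f₀) n = 3 * (m : ℂ) := Iff.rfl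

theorem one_notMem_congIdeal [NeZero N] {f₀ : CuspForm (Gamma0 N) 2} {a af : ℕ → ℤ}
    (hf₀ : ∀ n, (af n : ℂ) = qCoeff ⇑f₀ n) (haf : ∀ n, (3 : ℤ) ∣ af n - a n) (ha1 : a 1 = 1) :
    congIdeal N f₀ ≠ ⊤ := by
  rw [Ideal.ne_top_iff_one, mem_congIdeal_iff]
  intro h1
  obtain ⟨m, hm⟩ := h1 1
  have h2 : ((1 : heckeAlgebra N 2 ∅) : Module.End ℂ (CuspForm (Gamma0 N) 2)) f₀ = f₀ := rfl
  rw [h2, ← hf₀] at hm
  have h3 : af 1 = 3 * m := by exact_mod_cast hm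
  obtain ⟨d, hd⟩ := haf 1
  rw [ha1] at hd
  omega

theorem three_mem_congIdeal [NeZero N] {f₀ : CuspForm (Gamma0 N) 2} {af : ℕ → ℤ}
    (hf₀ : ∀ n, (af n : ℂ) = qCoeff ⇑f₀ n) :
    ((3 : ℕ) : heckeAlgebra N 2 ∅) ∈ congIdeal N f₀ := by
  rw [mem_congIdeal_iff]
  intro n
  refine ⟨af n, ?_⟩
  have h2 : (((3 : ℕ) : heckeAlgebra N 2 ∅) : Module.End ℂ (CuspForm (Gamma0 N) 2)) f₀ =
      (3 : ℂ) • f₀ := by
    have h3 : (((3 : ℕ) : heckeAlgebra N 2 ∅) : Module.End ℂ (CuspForm (Gamma0 N) 2)) =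
        ((3 : ℕ) : Module.End ℂ (CuspForm (Gamma0 N) 2)) := rfl
    rw [h3, Module.End.natCast_apply, ← Nat.cast_smul_eq_nsmul ℂ]
    norm_num
  rw [h2, qc_smul, hf₀]

theorem T_sub_mem_congIdeal [NeZero N] {f₀ : CuspForm (Gamma0 N) 2} {a af : ℕ → ℤ}
    (hf₀ : ∀ n, (af n : ℂ) = qCoeff ⇑f₀ n) (haf : ∀ n, (3 : ℤ) ∣ af n - a n)
    (heig : FormalHecke.IsEigensystem
      (fun ℓ => if ℓ ∣ N then 0 else ((chiNegThree ℓ : ℤ) : ℤ)) a)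
    {ℓ : ℕ} (hℓ : ℓ.Prime) (hℓN : ¬ ℓ ∣ N) :
    (heckeAlgebra.T hℓ hℓN (Set.notMem_empty ℓ) : heckeAlgebra N 2 ∅) -
      ((a ℓ : ℤ) : heckeAlgebra N 2 ∅) ∈ congIdeal N f₀ := by
  rw [mem_congIdeal_iff]
  intro n
  have h2 : ((heckeAlgebra.T hℓ hℓN (Set.notMem_empty ℓ) - ((a ℓ : ℤ) : heckeAlgebra N 2 ∅) :
      heckeAlgebra N 2 ∅) : Module.End ℂ (CuspForm (Gamma0 N) 2)) f₀ =
      heckeTLin 2 hℓ hℓN f₀ - (a ℓ : ℂ) • f₀ := by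
    have h3 : ((heckeAlgebra.T hℓ hℓN (Set.notMem_empty ℓ) - ((a ℓ : ℤ) : heckeAlgebra N 2 ∅) :
      heckeAlgebra N 2 ∅) : Module.End ℂ (CuspForm (Gamma0 N) 2)) =
        heckeTLin 2 hℓ hℓN - ((a ℓ : ℤ) : Module.End ℂ (CuspForm (Gamma0 N) 2)) := rfl
    rw [h3, LinearMap.sub_apply, Module.End.intCast_apply, Int.cast_smul_eq_zsmul]
  rw [h2, qc_sub, qc_heckeT, qc_smul, ← hf₀, ← hf₀]
  have key : (3 : ℤ) ∣ af (n * ℓ) + (if ℓ ∣ n then (ℓ : ℤ) * af (n / ℓ) else 0) - a ℓ * af n := by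
    have h4 := heig.2 ℓ hℓ n
    simp only [if_neg hℓN] at h4
    obtain ⟨d1, hd1⟩ := haf (n * ℓ)
    obtain ⟨d3, hd3⟩ := haf n
    rw [mul_comm ℓ n] at h4
    by_cases hdvd : ℓ ∣ n
    · rw [if_pos hdvd] at h4 ⊢
      obtain ⟨d2, hd2⟩ := haf (n / ℓ)
      obtain ⟨c, hc⟩ := chi_cong ℓ
      refine ⟨d1 + ℓ * d2 + c * a (n / ℓ) - a ℓ * d3, ?_⟩
      linear_combination hd1 + (ℓ : ℤ) * hd2 + a (n / ℓ) * hc - a ℓ * hd3 + h4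
    · rw [if_neg hdvd] at h4 ⊢
      refine ⟨d1 - a ℓ * d3, ?_⟩
      linear_combination hd1 - a ℓ * hd3 + h4
  obtain ⟨m, hm⟩ := key
  refine ⟨m, ?_⟩
  have h5 := congrArg (Int.cast : ℤ → ℂ) hm
  rw [← hf₀]
  by_cases hdvd : ℓ ∣ n
  · rw [if_pos hdvd] at h5 ⊢
    push_cast at h5
    exact h5
  · rw [if_neg hdvd] at h5 ⊢
    push_cast at h5
    exact h5

theorem U_sub_mem_congIdeal [NeZero N] {f₀ : CuspForm (Gamma0 N) 2} {a af : ℕ → ℤ}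
    (hf₀ : ∀ n, (af n : ℂ) = qCoeff ⇑f₀ n) (haf : ∀ n, (3 : ℤ) ∣ af n - a n)
    (heig : FormalHecke.IsEigensystem
      (fun ℓ => if ℓ ∣ N then 0 else ((chiNegThree ℓ : ℤ) : ℤ)) a)
    {ℓ : ℕ} (hℓ : ℓ.Prime) (hℓN : ℓ ∣ N) :
    (heckeAlgebra.U hℓ hℓN (Set.notMem_empty ℓ) : heckeAlgebra N 2 ∅) -
      ((a ℓ : ℤ) : heckeAlgebra N 2 ∅) ∈ congIdeal N f₀ := by
  rw [mem_congIdeal_iff]
  intro n
  have h2 : ((heckeAlgebra.U hℓ hℓN (Set.notMem_empty ℓ) - ((a ℓ : ℤ) : heckeAlgebra N 2 ∅) :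
      heckeAlgebra N 2 ∅) : Module.End ℂ (CuspForm (Gamma0 N) 2)) f₀ =
      heckeULin 2 hℓN f₀ - (a ℓ : ℂ) • f₀ := by
    have h3 : ((heckeAlgebra.U hℓ hℓN (Set.notMem_empty ℓ) - ((a ℓ : ℤ) : heckeAlgebra N 2 ∅) :
      heckeAlgebra N 2 ∅) : Module.End ℂ (CuspForm (Gamma0 N) 2)) =
        heckeULin 2 hℓN - ((a ℓ : ℤ) : Module.End ℂ (CuspForm (Gamma0 N) 2)) := rfl
    rw [h3, LinearMap.sub_apply, Module.End.intCast_apply, Int.cast_smul_eq_zsmul]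
  rw [h2, qc_sub, qc_heckeU hℓ, qc_smul, ← hf₀, ← hf₀]
  have key : (3 : ℤ) ∣ af (n * ℓ) - a ℓ * af n := by
    have h4 := heig.2 ℓ hℓ n
    simp only [if_pos hℓN, zero_mul, add_zero] at h4
    obtain ⟨d1, hd1⟩ := haf (n * ℓ)
    obtain ⟨d3, hd3⟩ := haf n
    rw [mul_comm ℓ n] at h4
    refine ⟨d1 - a ℓ * d3, ?_⟩
    linear_combination hd1 - a ℓ * hd3 + h4
  obtain ⟨m, hm⟩ := key
  refine ⟨m, ?_⟩
  have h5 := congrArg (Int.cast : ℤ → ℂ) hm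
  push_cast at h5
  exact h5

end Fermat.Agent.S49
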