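import Mathlib

set_option autoImplicit false

namespace Fermat.Agent.S49

/-- Every minimal prime of a finite-dimensional commutative complex algebra acting faithfully
on a finite-dimensional space is the kernel of a character occurring in that space. -/
theorem exists_eigenvector_of_mem_minimalPrimes {A V : Type*} [CommRing A] [Algebra ℂ A]
    [Module.Finite ℂ A] [AddCommGroup V] [Module ℂ V] [Module A V] [IsScalarTower ℂ A V]
    [Module.Finite ℂ V] (hfaith : ∀ a : A, (∀ v : V, a • v = 0) → a = 0)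
    (𝔫 : Ideal A) (h𝔫 : 𝔫 ∈ minimalPrimes A) :
    ∃ (Ψ : A →ₐ[ℂ] ℂ) (v : V), v ≠ 0 ∧ RingHom.ker (Ψ : A →+* ℂ) = 𝔫 ∧
      ∀ a : A, a • v = Ψ a • v := by
  have : IsNoetherianRing A := IsNoetherianRing.of_finite ℂ A
  have : Module.Finite A V := Module.Finite.of_restrictScalars_finite ℂ A V
  have hann : Module.annihilator A V = ⊥ := by
    ext a
    rw [Module.mem_annihilator, Ideal.mem_bot]
    exact ⟨hfaith a, fun h v => by rw [h, zero_smul]⟩
  have hass : 𝔫 ∈ associatedPrimes A V := by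
    apply Module.associatedPrimes.minimalPrimes_annihilator_subset_associatedPrimes
    rw [hann]
    exact h𝔫
  obtain ⟨hprime, v, hv⟩ := (isAssociatedPrime_iff (M := V)).mp hass
  have := hprime
  have hmem : ∀ a : A, a ∈ 𝔫 ↔ a • v = 0 := by
    intro a
    rw [hv, Submodule.mem_colon_singleton, Submodule.mem_bot]
  have hbij : Function.Bijective (algebraMap ℂ (A ⧸ 𝔫)) :=
    IsAlgClosed.algebraMap_bijective_of_isIntegral
  let e : ℂ ≃ₐ[ℂ] (A ⧸ 𝔫) := AlgEquiv.ofBijective (Algebra.ofId ℂ (A ⧸ 𝔫)) hbij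
  let Ψ : A →ₐ[ℂ] ℂ := (e.symm : (A ⧸ 𝔫) →ₐ[ℂ] ℂ).comp (Ideal.Quotient.mkₐ ℂ 𝔫)
  have hΨ : ∀ a : A, a - algebraMap ℂ A (Ψ a) ∈ 𝔫 := by
    intro a
    rw [← Ideal.Quotient.eq]
    have h1 : e (Ψ a) = Ideal.Quotient.mk 𝔫 a := by
      simp [Ψ]
    rw [← h1]
    rfl
  have hv0 : v ≠ 0 := by
    intro h0
    have : (1 : A) ∈ 𝔫 := by rw [hmem, h0, smul_zero]
    exact hprime.ne_top ((Ideal.eq_top_iff_one _).mpr this)
  refine ⟨Ψ, v, hv0, ?_, ?_⟩
  · ext a
    rw [RingHom.mem_ker]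
    constructor
    · intro h
      have := hΨ a
      rw [show Ψ a = 0 from h, map_zero, sub_zero] at this
      exact this
    · intro h
      have h1 : e (Ψ a) = Ideal.Quotient.mk 𝔫 a := by
        simp [Ψ]
      have h2 : Ideal.Quotient.mk 𝔫 a = 0 := Ideal.Quotient.eq_zero_iff_mem.mpr h
      rw [h2] at h1
      exact (map_eq_zero_iff e e.injective).mp h1
  · intro a
    have := (hmem _).mp (hΨ a)
    rw [sub_smul, sub_eq_zero, algebraMap_smul] at this
    exact this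

open scoped IsMulCommutative in
theorem exists_eigenvector_of_ideal {V : Type*} [AddCommGroup V] [Module ℂ V] [Module.Finite ℂ V]
    {T : Type*} [CommRing T] (ρ : T →+* Module.End ℂ V) (hρ : Function.Injective ρ)
    (hint : ∀ t : T, IsIntegral ℤ t) (𝔪 : Ideal T) (h𝔪 : 𝔪 ≠ ⊤) :
    ∃ (v : V) (χ : T →+* integralClosure ℤ ℂ) (𝔪' : Ideal (integralClosure ℤ ℂ)),
      v ≠ 0 ∧ 𝔪'.IsMaximal ∧ (∀ t, ρ t v = ((χ t : integralClosure ℤ ℂ) : ℂ) • v) ∧
        𝔪 ≤ 𝔪'.comap χ := by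
  classical
  obtain ⟨𝔪₁, h𝔪₁, hle⟩ := Ideal.exists_le_maximal 𝔪 h𝔪
  have := h𝔪₁
  obtain ⟨𝔭, h𝔭, h𝔭le⟩ := Ideal.exists_minimalPrimes_le (I := ⊥) (J := 𝔪₁) bot_le
  have hs : ∀ a ∈ Set.range ρ, ∀ b ∈ Set.range ρ, a * b = b * a := by
    rintro _ ⟨x, rfl⟩ _ ⟨y, rfl⟩
    rw [← map_mul, ← map_mul, mul_comm]
  have : IsMulCommutative (Algebra.adjoin ℂ (Set.range ρ)) :=
    Algebra.isMulCommutative_adjoin ℂ hs
  let A : Subalgebra ℂ (Module.End ℂ V) := Algebra.adjoin ℂ (Set.range ρ)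
  have : IsMulCommutative A := Algebra.isMulCommutative_adjoin ℂ hs
  let ι : T →+* A := ρ.codRestrict A (fun t => Algebra.subset_adjoin ⟨t, rfl⟩)
  have hι : Function.Injective ι := by
    intro x y hxy
    apply hρ
    exact congrArg Subtype.val hxy
  obtain ⟨𝔫, h𝔫, hcomap⟩ := Ideal.exists_minimalPrimes_comap_eq ι 𝔭
    (by rwa [Ideal.comap_bot_of_injective ι hι])
  have hfaith : ∀ a : A, (∀ v : V, a • v = 0) → a = 0 := by
    intro a ha
    apply Subtype.ext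
    apply LinearMap.ext
    intro v
    exact ha v
  obtain ⟨Ψ, v, hv0, hker, heig⟩ := exists_eigenvector_of_mem_minimalPrimes hfaith 𝔫 h𝔫
  let χ₀ : T →+* ℂ := (Ψ : A →+* ℂ).comp ι
  have hχ₀ : ∀ t, IsIntegral ℤ (χ₀ t) := fun t => map_isIntegral_int χ₀ (hint t)
  let χ : T →+* integralClosure ℤ ℂ := χ₀.codRestrict (integralClosure ℤ ℂ) hχ₀
  let _ : Algebra T (integralClosure ℤ ℂ) := χ.toAlgebra
  have : Algebra.IsIntegral T (integralClosure ℤ ℂ) := Algebra.IsIntegral.tower_top ℤ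
  have hkerχ : RingHom.ker (algebraMap T (integralClosure ℤ ℂ)) ≤ 𝔪₁ := by
    intro t ht
    apply h𝔭le
    rw [← hcomap, Ideal.mem_comap, ← hker, RingHom.mem_ker]
    rw [RingHom.mem_ker] at ht
    have := congrArg Subtype.val ht
    exact this
  obtain ⟨Q, hQ, hQcomap⟩ := Ideal.exists_ideal_over_maximal_of_isIntegral 𝔪₁ hkerχ
  refine ⟨v, χ, Q, hv0, hQ, ?_, ?_⟩
  · intro t
    exact heig (ι t)
  · intro t ht
    have : t ∈ Ideal.comap (algebraMap T (integralClosure ℤ ℂ)) Q := by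
      rw [hQcomap]
      exact hle ht
    exact this

end Fermat.Agent.S49
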