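import Fermat.Agent.S49.Integral

set_option autoImplicit false

open CuspForm EisensteinWeightOne CongruenceSubgroup ModularFormClass UpperHalfPlane

namespace Fermat.Agent.S49

variable {N : ℕ}

theorem e1_eq : e1Chi3In ℤ =
    1 + PowerSeries.C (6 : ℤ) * PowerSeries.mk (fun n => if n = 0 then 0 else sigmaChi n) := by
  ext n
  simp only [e1Chi3In, e1Chi3, PowerSeries.coeff_map, PowerSeries.coeff_mk, map_add,
    PowerSeries.coeff_one, PowerSeries.coeff_C_mul]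
  split_ifs <;> simp

theorem bridge_coeff (a : ℕ → ℤ) (n : ℕ) :
    (3 : ℤ) ∣ PowerSeries.coeff n (bridgeProduct a) - a n := by
  unfold bridgeProduct
  rw [e1_eq, mul_add, mul_one, mul_left_comm, map_add, PowerSeries.coeff_mk,
    PowerSeries.coeff_C_mul]
  refine ⟨2 * PowerSeries.coeff n (PowerSeries.mk a *
    PowerSeries.mk (fun n => if n = 0 then 0 else sigmaChi n)), ?_⟩
  ring

theorem chi_cong (ℓ : ℕ) : (3 : ℤ) ∣ (ℓ : ℤ) - chiNegThree ℓ := by
  unfold chiNegThree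
  split_ifs <;> omega

noncomputable def congIdeal (N : ℕ) [NeZero N] (f₀ : CuspForm (Gamma0 N) 2) :
    Ideal (heckeAlgebra N 2 ∅) where
  carrier := {t | ∀ n : ℕ, ∃ m : ℤ,
    qCoeff ⇑((t : Module.End ℂ (CuspForm (Gamma0 N) 2)) f₀) n = 3 * (m : ℂ)}
  add_mem' {s t} hs ht n := by
    obtain ⟨a, ha⟩ := hs n
    obtain ⟨b, hb⟩ := ht n
    refine ⟨a + b, ?_⟩
    have : ((s + t : heckeAlgebra N 2 ∅) : Module.End ℂ (CuspForm (Gamma0 N) 2)) f₀ =
        (s : Module.End ℂ (CuspForm (Gamma0 N) 2)) f₀ +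
          (t : Module.End ℂ (CuspForm (Gamma0 N) 2)) f₀ := rfl
    rw [this, qc_add, ha, hb]
    push_cast
    ring
  zero_mem' n := by
    refine ⟨0, ?_⟩
    have : ((0 : heckeAlgebra N 2 ∅) : Module.End ℂ (CuspForm (Gamma0 N) 2)) f₀ = 0 := rfl
    rw [this, qc_zero]
    simp
  smul_mem' c {x} hx n := by
    have h1 : ((c • x : heckeAlgebra N 2 ∅) : Module.End ℂ (CuspForm (Gamma0 N) 2)) f₀ =
        (c : Module.End ℂ (CuspForm (Gamma0 N) 2))
          ((x : Module.End ℂ (CuspForm (Gamma0 N) 2)) f₀) := rfl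
    set y := (x : Module.End ℂ (CuspForm (Gamma0 N) 2)) f₀ with hy
    have hx' : ∀ n : ℕ, ∃ m : ℤ, qCoeff ⇑y n = 3 * (m : ℂ) := hx
    have hg : (3 : ℂ)⁻¹ • y ∈ CuspForm.intLattice N 2 := by
      rw [mem_intLattice_iff]
      intro n
      obtain ⟨m, hm⟩ := hx' n
      refine ⟨m, ?_⟩
      rw [qc_smul, hm]
      field_simp
    have hcg := CuspForm.mem_intLattice_of_mem_heckeAlgebra (N := N) (k := 2) (by norm_num)
      c.2 hg
    rw [mem_intLattice_iff] at hcg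
    obtain ⟨m, hm⟩ := hcg n
    refine ⟨m, ?_⟩
    have h2 : y = (3 : ℂ) • ((3 : ℂ)⁻¹ • y) := by
      rw [smul_smul, mul_inv_cancel₀ (by norm_num : (3 : ℂ) ≠ 0), one_smul]
    rw [h1, h2, map_smul, qc_smul, hm]

end Fermat.Agent.S49
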