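import Mathlib
import Fermat.Prelude.Def_FormalHecke_Eigensystem

set_option autoImplicit false

namespace Fermat.Agent.S49

theorem isRecursive_of_isEigensystem {R : Type*} [CommRing R] {e a : ℕ → R}
    (h : FormalHecke.IsEigensystem e a) : FormalHecke.IsRecursive e a := by
  obtain ⟨h1, hrec⟩ := h
  have hpow : ∀ ℓ r : ℕ, ℓ.Prime →
      a (ℓ ^ (r + 2)) = a ℓ * a (ℓ ^ (r + 1)) - e ℓ * a (ℓ ^ r) := by
    intro ℓ r hℓ
    have h2 := hrec ℓ hℓ (ℓ ^ (r + 1))
    rw [if_pos (dvd_pow_self ℓ (Nat.succ_ne_zero r))] at h2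
    have e1 : ℓ * ℓ ^ (r + 1) = ℓ ^ (r + 2) := by ring
    have e2 : ℓ ^ (r + 1) / ℓ = ℓ ^ r := by
      rw [pow_succ]
      exact Nat.mul_div_cancel _ hℓ.pos
    rw [e1, e2] at h2
    linear_combination h2
  have hpm : ∀ ℓ : ℕ, ℓ.Prime → ∀ k n : ℕ, ¬ ℓ ∣ n → a (ℓ ^ k * n) = a (ℓ ^ k) * a n := by
    intro ℓ hℓ k n hn
    induction k using Nat.twoStepInduction with
    | zero => simp [h1]
    | one =>
      have h2 := hrec ℓ hℓ n
      rw [if_neg hn] at h2
      simpa using h2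
    | more k ih0 ih1 =>
      have h2 := hrec ℓ hℓ (ℓ ^ (k + 1) * n)
      rw [if_pos (Dvd.dvd.mul_right (dvd_pow_self ℓ (Nat.succ_ne_zero k)) n)] at h2
      have e1 : ℓ * (ℓ ^ (k + 1) * n) = ℓ ^ (k + 2) * n := by ring
      have e2 : ℓ ^ (k + 1) * n / ℓ = ℓ ^ k * n := by
        have : ℓ ^ (k + 1) * n = ℓ ^ k * n * ℓ := by ring
        rw [this]
        exact Nat.mul_div_cancel _ hℓ.pos
      rw [e1, e2, ih0, ih1] at h2
      rw [hpow ℓ k hℓ]
      linear_combination h2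
  refine ⟨h1, ?_, hpow⟩
  intro m
  induction m using Nat.recOnPosPrimePosCoprime with
  | prime_pow p k hp hk =>
    intro n hmn
    apply hpm p hp k n
    intro hdvd
    have h3 : p ∣ Nat.gcd (p ^ k) n := Nat.dvd_gcd (dvd_pow_self p hk.ne') hdvd
    rw [hmn] at h3
    exact hp.one_lt.ne' (Nat.dvd_one.mp h3)
  | zero =>
    intro n hmn
    have : n = 1 := by simpa using hmn
    subst this
    simp [h1]
  | one =>
    intro n _
    simp [h1]
  | coprime m₁ m₂ _ _ hcop ih1 ih2 =>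
    intro n hmn
    have hc1 : m₁.Coprime n := Nat.Coprime.coprime_mul_right hmn
    have hc2 : m₂.Coprime n := Nat.Coprime.coprime_mul_left hmn
    have hc3 : m₁.Coprime (m₂ * n) := Nat.Coprime.mul_right hcop hc1
    rw [mul_assoc, ih1 (m₂ * n) hc3, ih2 n hc2, ih1 m₂ hcop, mul_assoc]

end Fermat.Agent.S49
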