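import Fermat.Agent.S49.Coeff
import Fermat.Agent.S49.Abstract
import Fermat.Agent.S49.Formal

set_option autoImplicit false

open CuspForm EisensteinWeightOne CongruenceSubgroup ModularFormClass UpperHalfPlane

namespace Fermat.Agent.S49

variable {N : ℕ}

noncomputable def restrictHom (N : ℕ) [NeZero N] :
    heckeAlgebra N 2 ∅ →ₐ[ℤ] Module.End ℤ (CuspForm.intLattice N 2) where
  toFun t := ((t : Module.End ℂ (CuspForm (Gamma0 N) 2)).restrictScalars ℤ).restrict
    (fun _ hx => CuspForm.mem_intLattice_of_mem_heckeAlgebra (by norm_num) t.2 hx)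
  map_one' := by ext x; rfl
  map_mul' s t := by ext x; rfl
  map_zero' := by ext x; rfl
  map_add' s t := by ext x; rfl
  commutes' z := by
    ext x
    simp

theorem restrictHom_injective [NeZero N] (h : CuspForm.HasIntegralBasis N) :
    Function.Injective (restrictHom N) := by
  intro s t hst
  apply Subtype.ext
  apply LinearMap.ext_on h
  intro x hx
  have hx' : x ∈ CuspForm.intLattice N 2 := (mem_qIntegralSet_iff x).mp hx
  have := congrArg (fun r : Module.End ℤ (CuspForm.intLattice N 2) => ((r ⟨x, hx'⟩ : CuspForm.intLattice N 2) : CuspForm (Gamma0 N) 2)) hst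
  exact this

theorem isIntegral_hecke [NeZero N] (h : CuspForm.HasIntegralBasis N)
    (t : heckeAlgebra N 2 ∅) : IsIntegral ℤ t := by
  have hfin : Module.Finite ℤ (CuspForm.intLattice N 2) :=
    Module.Finite.iff_fg.mpr (CuspForm.intLattice_fg N 2)
  have h1 : IsIntegral ℤ (restrictHom N t) :=
    (Module.End.isIntegral (R := ℤ) (M := CuspForm.intLattice N 2)).isIntegral (restrictHom N t)
  exact (isIntegral_algHom_iff (restrictHom N) (restrictHom_injective h)).mp h1

end Fermat.Agent.S49
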